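/-
Lib/J4 (sub-architect helper269): Jacobi's identity `θ t₄ / t₄ = - G₄²` (four squares theorem in eta
form), `t₄ = η(τ)^8/η(4τ)^8 = 1 / h₄`, `G₄ = η(2τ)^10/(η(τ) η(4τ))^4`.  Definitions.
-/
import Fermat.Agent.Lib.Hauptmodul49.Defs
import Fermat.Agent.Lib.Hauptmodul.Basic
import Fermat.Agent.S16.Defs

set_option autoImplicit false

noncomputable section

namespace Fermat.Agent.Lib.J4

open ModularCurve Fermat.Agent.Lib.Hauptmodul PowerSeries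

/-- `θ = X d/dX` as a derivation of `R⟦X⟧`. -/
def thetaD (R : Type*) [CommRing R] : Derivation R R⟦X⟧ R⟦X⟧ := (X : R⟦X⟧) • d⁄dX R

theorem thetaD_apply {R : Type*} [CommRing R] (f : R⟦X⟧) : thetaD R f = X * d⁄dX R f := rfl

theorem coeff_thetaD {R : Type*} [CommRing R] (f : R⟦X⟧) (n : ℕ) :
    coeff n (thetaD R f) = (n : R) * coeff n f := by
  rw [thetaD_apply]
  cases n with
  | zero => simp
  | succ n =>
    rw [coeff_succ_X_mul, coeff_derivative]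
    push_cast
    ring

/-- `G₄ = ∏ (1 - q^{2n})^10 / ((1 - q^n)(1 - q^{4n}))^4 = (∑ q^{n²})²`. -/
def G4Z : PowerSeries ℤ := dilZ 2 etaProd ^ 10 * (etaProdInv * dilZ 4 etaProdInv) ^ 4

/-- `(4 E₂(4τ) - E₂(τ)) / 3 = 1 + 8 ∑ (σ(n) - 4 σ(n/4)) q^n`. -/
def E24Z : PowerSeries ℤ := 1 + 8 * S16.sigZ 1 - 32 * dilZ 4 (S16.sigZ 1)

end Fermat.Agent.Lib.J4

end
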