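/-
Lib/J4 (helper269): the results of `Lib/J4` in the shape used by block ETAINST (helper210).
-/
import Fermat.Agent.Lib.J4.Defs
import Fermat.Agent.Lib.Hauptmodul.AnyRing
import Fermat.Agent.BAD.Model.EtaInst.Defs

set_option autoImplicit false

noncomputable section

namespace Fermat.Agent.Lib.J4

open ModularCurve Fermat.Agent.Lib.Hauptmodul PowerSeries
open Fermat.Agent.BAD.Model.EtaInst (G4z T4z)

theorem G4z_eq : G4z = G4Z := by
  rw [G4z, G4Z, mul_pow, mul_assoc]

theorem T4z_mul_h4Z : T4z * h4Z = X := by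
  have h1 : etaProd * etaProdInv = 1 := etaProd_mul_inv
  have h2 : dilZ 4 etaProd * dilZ 4 etaProdInv = 1 := dilZ_etaProd_mul_inv 4
  rw [T4z, h4Z, u4Z]
  calc etaProd ^ 8 * dilZ 4 etaProdInv ^ 8 * (X * (dilZ 4 etaProd * etaProdInv) ^ 8)
      = X * ((etaProd * etaProdInv) ^ 8 * (dilZ 4 etaProd * dilZ 4 etaProdInv) ^ 8) := by ring
    _ = X := by rw [h1, h2]; ring

theorem h4Z_ne_zero : h4Z ≠ 0 := by
  intro h
  have := T4z_mul_h4Z
  rw [h, mul_zero] at this
  exact X_ne_zero this.symm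

theorem thetaD_X : thetaD ℤ (X : PowerSeries ℤ) = X := by
  rw [thetaD_apply, derivative_X, mul_one]

/-- the field `der` of `HauptData` for `(G4z, T4z)`, from the main theorem of `Lib/J4`. -/
theorem der_T4z_of (h : thetaD ℤ h4Z = h4Z * G4Z ^ 2) :
    X * derivative ℤ T4z - T4z = -(G4z ^ 2 * T4z) := by
  have h1 := congrArg (thetaD ℤ) T4z_mul_h4Z
  rw [Derivation.leibniz, thetaD_X, h, smul_eq_mul, smul_eq_mul, ← T4z_mul_h4Z] at h1
  rw [G4z_eq, ← thetaD_apply]
  apply mul_left_cancel₀ h4Z_ne_zero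
  linear_combination h1

end Fermat.Agent.Lib.J4

end
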