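/-
Lib/J4 (sub-architect helper269; this file: helper127): the formal bridges between the integral power
series of `Lib/Hauptmodul`, the Laurent series of `Lib/EtaFN` and the series of `Lib/EtaUnit`.
-/
import Fermat.Agent.Lib.J4.Defs
import Fermat.Agent.Lib.EtaFN.Final
import Fermat.Agent.Lib.Theta.Basic
import Fermat.Agent.Lib.EtaUnit.G4.Main
import Fermat.Agent.Lib.Hauptmodul.AnyRing

set_option autoImplicit false

noncomputable section

namespace Fermat.Agent.Lib.J4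

open ModularCurve Fermat.Agent.Lib.Hauptmodul PowerSeries UpperHalfPlane CongruenceSubgroup
open Fermat.Agent.S24
open scoped MatrixGroups

/-- B1 -/
theorem theta_toL (S : Type*) [CommRing S] (P : PowerSeries ℤ) :
    Theta.theta (toL S P) = toL S (thetaD ℤ P) := by
  ext k
  rw [Theta.theta_coeff]
  rcases lt_or_ge k 0 with hk | hk
  · rw [toL_coeff_of_neg _ _ hk, toL_coeff_of_neg _ _ hk, mul_zero]
  · obtain ⟨n, rfl⟩ := Int.eq_ofNat_of_zero_le hk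
    rw [toL_coeff_natCast, toL_coeff_natCast, coeff_thetaD]
    push_cast
    rfl

namespace Bridge

theorem dilZ_one' (P : PowerSeries ℤ) : dilZ 1 P = P := by
  ext k; simp [dilZ]

theorem eulerSerD_eq_toL (d : ℕ) [NeZero d] : EtaFN.eulerSerD d = toL Kbar (dilZ d etaProd) := by
  rw [EtaFN.eulerSerD_eq, toL_dilZ]
  rfl

theorem eulerSerD_inv (d : ℕ) [NeZero d] :
    (EtaFN.eulerSerD d)⁻¹ = toL Kbar (dilZ d etaProdInv) := by
  symm
  apply eq_inv_of_mul_eq_one_right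
  rw [eulerSerD_eq_toL, ← map_mul, dilZ_etaProd_mul_inv, map_one]

theorem eulerSerD_ne_zero (d : ℕ) [NeZero d] : EtaFN.eulerSerD d ≠ 0 := by
  intro h
  have h1 : EtaFN.eulerSerD d * toL Kbar (dilZ d etaProdInv) = 1 := by
    rw [eulerSerD_eq_toL, ← map_mul, dilZ_etaProd_mul_inv, map_one]
  rw [h, zero_mul] at h1
  exact zero_ne_one h1

end Bridge

open Bridge

/-- B2 -/
theorem etaSer_D4 : EtaFN.etaSer Finset.univ EtaFN.D4 EtaFN.r4 = toL Kbar G4Z := by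
  have e : EtaFN.etaSer Finset.univ EtaFN.D4 EtaFN.r4 =
      ((EtaFN.eulerSerD 1)⁻¹) ^ 4 * EtaFN.eulerSerD 2 ^ 10 * ((EtaFN.eulerSerD 4)⁻¹) ^ 4 := by
    rw [EtaFN.etaSer, Fin.prod_univ_three]
    have h0 : EtaFN.eulerSerD (EtaFN.D4 0) ^ EtaFN.r4 0 = ((EtaFN.eulerSerD 1)⁻¹) ^ 4 := by
      change EtaFN.eulerSerD 1 ^ (-4 : ℤ) = _
      rw [zpow_neg, inv_pow]
      norm_cast
    have h1 : EtaFN.eulerSerD (EtaFN.D4 1) ^ EtaFN.r4 1 = EtaFN.eulerSerD 2 ^ 10 := by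
      change EtaFN.eulerSerD 2 ^ (10 : ℤ) = _
      norm_cast
    have h2 : EtaFN.eulerSerD (EtaFN.D4 2) ^ EtaFN.r4 2 = ((EtaFN.eulerSerD 4)⁻¹) ^ 4 := by
      change EtaFN.eulerSerD 4 ^ (-4 : ℤ) = _
      rw [zpow_neg, inv_pow]
      norm_cast
    rw [h0, h1, h2]
  rw [e, eulerSerD_inv, eulerSerD_inv, eulerSerD_eq_toL, dilZ_one', G4Z, map_mul, map_pow, map_pow,
    map_mul]
  ring

/-- B2 -/
theorem etaSer_Dt4_mul :
    (HahnSeries.single (-1 : ℤ) (1 : Kbar) * EtaFN.etaSer Finset.univ EtaFN.Dt4 EtaFN.rt4) *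
      toL Kbar h4Z = 1 := by
  have e : EtaFN.etaSer Finset.univ EtaFN.Dt4 EtaFN.rt4 =
      EtaFN.eulerSerD 1 ^ 8 * ((EtaFN.eulerSerD 4)⁻¹) ^ 8 := by
    rw [EtaFN.etaSer, Fin.prod_univ_two]
    have h0 : EtaFN.eulerSerD (EtaFN.Dt4 0) ^ EtaFN.rt4 0 = EtaFN.eulerSerD 1 ^ 8 := by
      change EtaFN.eulerSerD 1 ^ (8 : ℤ) = _
      norm_cast
    have h1 : EtaFN.eulerSerD (EtaFN.Dt4 1) ^ EtaFN.rt4 1 = ((EtaFN.eulerSerD 4)⁻¹) ^ 8 := by
      change EtaFN.eulerSerD 4 ^ (-8 : ℤ) = _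
      rw [zpow_neg, inv_pow]
      norm_cast
    rw [h0, h1]
  have hX : HahnSeries.single (-1 : ℤ) (1 : Kbar) * toL Kbar X = 1 := by
    rw [toL_X, HahnSeries.single_mul_single]
    simp
  have h1 : EtaFN.eulerSerD 1 * toL Kbar etaProdInv = 1 := by
    rw [eulerSerD_eq_toL, dilZ_one', ← map_mul, etaProd_mul_inv, map_one]
  have h4 : (EtaFN.eulerSerD 4)⁻¹ * toL Kbar (dilZ 4 etaProd) = 1 := by
    rw [← eulerSerD_eq_toL]
    exact inv_mul_cancel₀ (eulerSerD_ne_zero 4)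
  rw [e, h4Z, u4Z, map_mul, map_pow, map_mul]
  calc HahnSeries.single (-1 : ℤ) (1 : Kbar) *
        (EtaFN.eulerSerD 1 ^ 8 * ((EtaFN.eulerSerD 4)⁻¹) ^ 8) *
        (toL Kbar X * (toL Kbar (dilZ 4 etaProd) * toL Kbar etaProdInv) ^ 8)
      = (HahnSeries.single (-1 : ℤ) (1 : Kbar) * toL Kbar X) *
        (EtaFN.eulerSerD 1 * toL Kbar etaProdInv) ^ 8 *
        ((EtaFN.eulerSerD 4)⁻¹ * toL Kbar (dilZ 4 etaProd)) ^ 8 := by ring
    _ = 1 := by rw [hX, h1, h4, one_pow, one_mul, one_mul]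

/-- B4 (the hypothesis is the main theorem) -/
theorem theta_t4_of (h : Theta.theta (toL Kbar h4Z) = toL Kbar h4Z * toL Kbar G4Z ^ 2) :
    Theta.theta
        (HahnSeries.single (-1 : ℤ) (1 : Kbar) * EtaFN.etaSer Finset.univ EtaFN.Dt4 EtaFN.rt4) =
      -(HahnSeries.single (-1 : ℤ) (1 : Kbar) * EtaFN.etaSer Finset.univ EtaFN.Dt4 EtaFN.rt4) *
        EtaFN.etaSer Finset.univ EtaFN.D4 EtaFN.r4 ^ 2 := by
  have hTH := etaSer_Dt4_mul
  rw [etaSer_D4]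
  generalize HahnSeries.single (-1 : ℤ) (1 : Kbar) *
    EtaFN.etaSer Finset.univ EtaFN.Dt4 EtaFN.rt4 = T at hTH ⊢
  generalize toL Kbar h4Z = H at hTH h
  generalize toL Kbar G4Z = G at h ⊢
  have h1 : Theta.theta (T * H) = 0 := by
    rw [hTH]
    exact Derivation.map_one_eq_zero _
  rw [Derivation.leibniz, smul_eq_mul, smul_eq_mul, h] at h1
  -- `T * (H * G ^ 2) + H * θ T = 0`
  calc Theta.theta T = (T * H) * Theta.theta T := by rw [hTH, one_mul]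
    _ = T * (T * (H * G ^ 2) + H * Theta.theta T) - T * (T * H) * G ^ 2 := by ring
    _ = -T * G ^ 2 := by rw [h1, hTH]; ring

/-- B3: the series of `Lib/EtaUnit`. -/
theorem G4s_eq : EtaUnit.G4s = G4Z := by
  apply toL_injective Kbar
  have h1 : HasTExp 1 EtaUnit.G4 (toL Kbar EtaUnit.G4s) := EtaUnit.isW1_G4.exp
  have h2 : HasTExp 1 (EtaFN.etaQuot Finset.univ EtaFN.D4 EtaFN.r4)
      (HahnSeries.single 0 1 * EtaFN.etaSer Finset.univ EtaFN.D4 EtaFN.r4) :=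
    EtaFN.hasTExp_etaQuot (s := Finset.univ) (D := EtaFN.D4) (r := EtaFN.r4)
      (by intro i _; fin_cases i <;> simp [EtaFN.D4]) 0
      (by simp [EtaFN.r4, EtaFN.D4, Fin.sum_univ_three])
  have e : EtaUnit.G4 = EtaFN.etaQuot Finset.univ EtaFN.D4 EtaFN.r4 := by
    funext τ
    rw [EtaFN.etaQuot, Fin.prod_univ_three, EtaUnit.G4, EtaUnit.G4c]
    change _ = ModularForm.eta (((1 : ℕ) : ℂ) * τ) ^ (-4 : ℤ) *
      ModularForm.eta (((2 : ℕ) : ℂ) * τ) ^ (10 : ℤ) * ModularForm.eta (((4 : ℕ) : ℂ) * τ) ^ (-4 : ℤ)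
    have z1 : ∀ a : ℂ, a ^ (-4 : ℤ) = (a ^ 4)⁻¹ := by
      intro a
      rw [zpow_neg]
      norm_cast
    have z2 : ∀ a : ℂ, a ^ (10 : ℤ) = a ^ 10 := by
      intro a
      norm_cast
    rw [z1, z1, z2, div_eq_mul_inv, mul_inv]
    push_cast
    rw [one_mul]
    ring
  rw [← e, etaSer_D4] at h2
  have h3 := h1.unique h2
  rw [h3]
  have : (HahnSeries.single 0 1 : LaurentSeries Kbar) = 1 := rfl
  rw [this, one_mul]

end Fermat.Agent.Lib.J4

end
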