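/-
Lib/J4 (sub-architect helper269), node A1 (owner helper186): `G₄²` is a modular form of weight two
on `Γ₀(4)`.
-/
import Fermat.Agent.Lib.EtaFN.Final

set_option autoImplicit false

noncomputable section

namespace Fermat.Agent.Lib.J4

open UpperHalfPlane CongruenceSubgroup Filter Topology
open Fermat.Agent.S28.EtaQuot
open scoped MatrixGroups Manifold ModularForm

/-- `G₄`. -/
local notation "G4f" => EtaFN.etaQuot Finset.univ EtaFN.D4 EtaFN.r4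

theorem form_hD : ∀ i ∈ (Finset.univ : Finset (Fin 3)), 0 < EtaFN.D4 i := by decide

theorem form_chi4_sq (d : ℤ) : EtaFN.chi4 d ^ 2 = 1 := by
  unfold EtaFN.chi4
  split_ifs <;> simp

/-- the slash of weight two of the square is the square of the slash of weight one -/
theorem form_sq_slash (F : ℍ → ℂ) (γ : SL(2, ℤ)) (τ : ℍ) :
    ((fun τ => F τ ^ 2) ∣[(2 : ℤ)] γ) τ = ((F ∣[(1 : ℤ)] γ) τ) ^ 2 := by
  rw [ModularForm.SL_slash_apply, ModularForm.SL_slash_apply, mul_pow]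
  congr 1
  rw [← zpow_natCast, ← zpow_mul]
  norm_num

theorem form_slash_of_mem (γ : SL(2, ℤ)) (hγ : γ ∈ Gamma0 4) :
    (fun τ => G4f τ ^ 2) ∣[(2 : ℤ)] γ = fun τ => G4f τ ^ 2 := by
  funext τ
  rw [form_sq_slash, EtaFN.G4_slash γ hγ, Pi.smul_apply, smul_eq_mul, mul_pow, form_chi4_sq,
    one_mul]

/-- the twelfth power of the slash of `G₄²` -/
theorem form_slash_pow (γ : SL(2, ℤ)) (τ : ℍ) :
    (((fun τ => G4f τ ^ 2) ∣[(2 : ℤ)] γ) τ) ^ 12 =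
      (etaQ Finset.univ EtaFN.D4 EtaFN.r4 ∣[12 * ∑ i, EtaFN.r4 i] γ) τ := by
  rw [form_sq_slash, ← pow_mul]
  exact EtaFN.slash_pow_24 _ _ (EtaFN.etaQuot_pow form_hD) 1 _ (by decide) γ τ

theorem form_ordQ (c : ℤ) :
    ordQ Finset.univ (gA EtaFN.D4 c) (gD EtaFN.D4 c) EtaFN.r4 = 0 ∨
      0 < ordQ Finset.univ (gA EtaFN.D4 c) (gD EtaFN.D4 c) EtaFN.r4 := by
  have h1 : Int.gcd 1 c = 1 := Int.one_gcd
  have key : ordQ Finset.univ (gA EtaFN.D4 c) (gD EtaFN.D4 c) EtaFN.r4 =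
      (-4 : ℚ) * ((Int.gcd 1 c : ℚ) / ((1 / Int.gcd 1 c : ℕ) : ℚ)) +
        10 * ((Int.gcd 2 c : ℚ) / ((2 / Int.gcd 2 c : ℕ) : ℚ)) +
        (-4) * ((Int.gcd 4 c : ℚ) / ((4 / Int.gcd 4 c : ℕ) : ℚ)) := by
    simp [ordQ, gA, gD, EtaFN.D4, EtaFN.r4, Fin.sum_univ_three]
  rw [key, h1]
  have h24 : Int.gcd 2 c = Nat.gcd 2 (Int.gcd 4 c) := by
    have : Int.gcd 2 c = Int.gcd (Int.gcd 2 4) c := by norm_num
    rw [this, Int.gcd_assoc]
    simp [Int.gcd]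
  rcases EtaFN.gcd_four_cases c with h | h | h <;> rw [h24, h] <;> norm_num

theorem form_isBounded_of_pow {f : ℍ → ℂ} {n : ℕ} (hn : n ≠ 0)
    (h : IsBoundedAtImInfty (fun τ => f τ ^ n)) : IsBoundedAtImInfty f := by
  rw [UpperHalfPlane.isBoundedAtImInfty_iff] at h ⊢
  obtain ⟨M, A, hMA⟩ := h
  refine ⟨max M 1, A, fun z hz => ?_⟩
  have h1 := hMA z hz
  rw [norm_pow] at h1
  by_contra hcon
  rw [not_le] at hcon
  have h2 : 1 < ‖f z‖ := lt_of_le_of_lt (le_max_right _ _) hcon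
  have h3 : ‖f z‖ ≤ ‖f z‖ ^ n := le_self_pow₀ h2.le hn
  exact absurd (lt_of_le_of_lt (le_max_left M 1) hcon) (not_lt.2 (h3.trans h1))

theorem form_isBounded_slash (γ : SL(2, ℤ)) :
    IsBoundedAtImInfty ((fun τ => G4f τ ^ 2) ∣[(2 : ℤ)] γ) := by
  refine form_isBounded_of_pow (n := 12) (by norm_num) ?_
  have e : (fun τ => (((fun τ => G4f τ ^ 2) ∣[(2 : ℤ)] γ) τ) ^ 12) =
      etaQ Finset.univ EtaFN.D4 EtaFN.r4 ∣[12 * ∑ i, EtaFN.r4 i] γ := funext (form_slash_pow γ)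
  rw [e]
  rcases form_ordQ (γ 1 0) with h0 | h0
  · obtain ⟨b, hb⟩ := tendsto_etaQ_slash EtaFN.r4 form_hD γ h0
    exact hb.isBigO_one ℝ
  · exact (tendsto_etaQ_slash_zero EtaFN.r4 form_hD γ h0).isBigO_one ℝ

/-- A1 `Form.lean`: `G₄²` is a modular form of weight two on `Γ₀(4)`. -/
theorem exists_G4sq : ∃ F : ModularForm (Gamma0 4) 2,
    ∀ τ : ℍ, F τ = EtaFN.etaQuot Finset.univ EtaFN.D4 EtaFN.r4 τ ^ 2 := by
  refine ⟨{ toFun := fun τ => G4f τ ^ 2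
            slash_action_eq' := ?_
            holo' := ?_
            bdd_at_cusps' := ?_ }, fun τ => rfl⟩
  · rintro _ ⟨γ, hγ, rfl⟩
    exact form_slash_of_mem γ hγ
  · exact (EtaFN.mdiff_etaQuot form_hD).pow 2
  · intro c hc
    have hc' : IsCusp c 𝒮ℒ := hc.mono (Subgroup.map_le_range _ _)
    rw [OnePoint.isBoundedAt_iff_forall_SL2Z hc']
    exact fun γ _ => form_isBounded_slash γ

end Fermat.Agent.Lib.J4

end
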