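/-
Lib/J4, nodes F2, F3, F4: formal part of Jacobi's identity `θ t₄ / t₄ = - G₄²`.
-/
import Fermat.Agent.Lib.J4.Defs

set_option autoImplicit false

noncomputable section

namespace Fermat.Agent.Lib.J4

open ModularCurve Fermat.Agent.Lib.Hauptmodul PowerSeries
open scoped PowerSeries.WithPiTopology

/-! ### F2 -/

theorem formal_coeff_dilZ (d : ℕ) (P : PowerSeries ℤ) (m : ℕ) :
    coeff m (dilZ d P) = if d ∣ m then coeff (m / d) P else 0 := by
  rw [dilZ, coeff_mk]

/-- F2 `Formal.lean` -/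
theorem thetaD_dilZ (d : ℕ) (P : PowerSeries ℤ) :
    thetaD ℤ (dilZ d P) = (d : PowerSeries ℤ) * dilZ d (thetaD ℤ P) := by
  ext m
  have hd : (d : PowerSeries ℤ) = C (d : ℤ) := by simp
  rw [coeff_thetaD, hd, coeff_C_mul, formal_coeff_dilZ, formal_coeff_dilZ]
  split_ifs with h
  · rw [coeff_thetaD]
    obtain ⟨k, rfl⟩ := h
    rcases Nat.eq_zero_or_pos d with rfl | hpos
    · simp
    · rw [Nat.mul_div_cancel_left _ hpos]
      push_cast
      ring
  · simp

theorem formal_dilZ_neg (d : ℕ) (P : PowerSeries ℤ) : dilZ d (-P) = -dilZ d P := by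
  ext m
  rw [map_neg, formal_coeff_dilZ, formal_coeff_dilZ]
  split_ifs
  · rw [map_neg]
  · rw [neg_zero]

/-! ### F3 -/

theorem formal_thetaD_X : thetaD ℤ (X : PowerSeries ℤ) = X := by
  rw [thetaD_apply]
  simp

theorem formal_thetaD_etaProdInv (h : thetaD ℤ etaProd = -(etaProd * S16.sigZ 1)) :
    thetaD ℤ etaProdInv = etaProdInv * S16.sigZ 1 := by
  have h1 : thetaD ℤ (etaProd * etaProdInv) = 0 := by
    rw [etaProd_mul_inv]
    exact (thetaD ℤ).map_one_eq_zero
  rw [Derivation.leibniz, h, smul_eq_mul, smul_eq_mul] at h1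
  have h2 := etaProd_mul_inv
  -- multiply by `etaProdInv`
  linear_combination etaProdInv * h1 + (-(thetaD ℤ etaProdInv) + etaProdInv * S16.sigZ 1) * h2

theorem formal_thetaD_dilZ_etaProd (h : thetaD ℤ etaProd = -(etaProd * S16.sigZ 1)) :
    thetaD ℤ (dilZ 4 etaProd) = -(4 * (dilZ 4 etaProd * dilZ 4 (S16.sigZ 1))) := by
  rw [thetaD_dilZ, h, formal_dilZ_neg, dilZ_mul]
  push_cast
  ring

/-- F3 `Formal.lean` (the hypothesis is node F1) -/
theorem thetaD_h4Z_of (h : thetaD ℤ etaProd = -(etaProd * S16.sigZ 1)) :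
    thetaD ℤ h4Z = h4Z * E24Z := by
  rw [h4Z, u4Z, Derivation.leibniz, Derivation.leibniz_pow, Derivation.leibniz, formal_thetaD_X,
    formal_thetaD_etaProdInv h, formal_thetaD_dilZ_etaProd h, E24Z]
  simp only [smul_eq_mul, nsmul_eq_mul]
  push_cast
  ring

/-! ### F4 : first order jets -/

/-- `P ≡ 1 + a X mod X²` -/
def IsJet (P : PowerSeries ℤ) (a : ℤ) : Prop := coeff 0 P = 1 ∧ coeff 1 P = a

theorem IsJet.one : IsJet 1 0 := by
  constructor <;> simp [coeff_one]

theorem IsJet.mul {P Q : PowerSeries ℤ} {a b : ℤ} (hP : IsJet P a) (hQ : IsJet Q b) :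
    IsJet (P * Q) (a + b) := by
  constructor
  · rw [coeff_mul]
    simp [hP.1, hQ.1]
  · rw [coeff_mul]
    simp [Finset.Nat.antidiagonal_succ, hP.1, hP.2, hQ.1, hQ.2, add_comm]

theorem IsJet.pow {P : PowerSeries ℤ} {a : ℤ} (hP : IsJet P a) (n : ℕ) :
    IsJet (P ^ n) (n * a) := by
  induction n with
  | zero => simpa using IsJet.one
  | succ n ih =>
    rw [pow_succ]
    have := ih.mul hP
    convert this using 1
    push_cast
    ring

theorem IsJet.dilZ {P : PowerSeries ℤ} {a : ℤ} (hP : IsJet P a) {d : ℕ} (hd : 2 ≤ d) :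
    IsJet (dilZ d P) 0 := by
  constructor
  · rw [formal_coeff_dilZ, if_pos (dvd_zero d), Nat.zero_div, hP.1]
  · rw [formal_coeff_dilZ, if_neg]
    intro h
    have := Nat.le_of_dvd one_pos h
    omega

theorem isJet_factor (n : ℕ) :
    IsJet (1 - X ^ (n + 1) : PowerSeries ℤ) (if n = 0 then -1 else 0) := by
  constructor
  · simp
  · rcases Nat.eq_zero_or_pos n with rfl | hn
    · simp [coeff_one]
    · have h1 : n ≠ 0 := hn.ne'
      simp [coeff_X_pow, coeff_one, h1]

theorem isJet_finprod (s : Finset ℕ) :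
    IsJet (∏ n ∈ s, (1 - X ^ (n + 1) : PowerSeries ℤ)) (if 0 ∈ s then -1 else 0) := by
  classical
  induction s using Finset.induction_on with
  | empty => simpa using IsJet.one
  | insert a s ha ih =>
    rw [Finset.prod_insert ha]
    have := (isJet_factor a).mul ih
    convert this using 1
    by_cases h0 : a = 0
    · subst h0
      simp [ha]
    · have h0' : ¬ (0 = a) := fun h => h0 h.symm
      simp [h0, h0']

theorem isJet_etaProd : IsJet etaProd (-1) := by
  refine ⟨by rw [coeff_zero_eq_constantCoeff_apply, constantCoeff_etaProd], ?_⟩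
  have h := (PowerSeries.WithPiTopology.multipliable_one_sub_X_pow ℤ).hasProd
  unfold HasProd at h
  rw [SummationFilter.unconditional_filter] at h
  have h1 := ((PowerSeries.WithPiTopology.continuous_coeff ℤ 1).tendsto _).comp h
  have h2 : Filter.Tendsto ((coeff 1 : PowerSeries ℤ → ℤ) ∘
      fun s : Finset ℕ => ∏ b ∈ s, (fun n => (1 - X ^ (n + 1) : PowerSeries ℤ)) b)
      Filter.atTop (nhds (-1)) := by
    refine tendsto_const_nhds.congr' ?_
    filter_upwards [Filter.eventually_ge_atTop ({0} : Finset ℕ)] with s hs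
    have h0 : 0 ∈ s := hs (Finset.mem_singleton_self 0)
    have := (isJet_finprod s).2
    rw [if_pos h0] at this
    exact this.symm
  exact tendsto_nhds_unique h1 h2

theorem isJet_etaProdInv : IsJet etaProdInv 1 := by
  have h0 : coeff 0 etaProdInv = 1 := by
    rw [coeff_zero_eq_constantCoeff_apply, constantCoeff_etaProdInv]
  refine ⟨h0, ?_⟩
  have h := (isJet_etaProd.mul (⟨h0, rfl⟩ : IsJet etaProdInv (coeff 1 etaProdInv))).2
  rw [etaProd_mul_inv] at h
  have h1 : coeff 1 (1 : PowerSeries ℤ) = 0 := IsJet.one.2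
  rw [h1] at h
  linarith

theorem isJet_G4Z : IsJet G4Z 4 := by
  have h := ((isJet_etaProd.dilZ (le_refl 2)).pow 10).mul
    ((isJet_etaProdInv.mul (isJet_etaProdInv.dilZ (d := 4) (by norm_num))).pow 4)
  rw [G4Z]
  convert h using 1
  norm_num

/-- F4 `Formal.lean` -/
theorem coeff_zero_G4Z_sq : coeff 0 (G4Z ^ 2) = 1 := (isJet_G4Z.pow 2).1

/-- F4 `Formal.lean` -/
theorem coeff_one_G4Z_sq : coeff 1 (G4Z ^ 2) = 8 := by
  rw [(isJet_G4Z.pow 2).2]
  norm_num

end Fermat.Agent.Lib.J4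

end
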