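/-
Lib/J4 (sub-architect helper269), node F1 (task 2317, helper198): the logarithmic derivative of the
Euler product, `θ ∏ (1 - q^n) = - ∏ (1 - q^n) * ∑ σ₁(n) q^n`.
-/
import Fermat.Agent.Lib.J4.Defs

set_option autoImplicit false

noncomputable section

namespace Fermat.Agent.Lib.J4

open ModularCurve Fermat.Agent.Lib.Hauptmodul PowerSeries Filter Topology
open scoped PowerSeries.WithPiTopology

namespace LogDeriv

/-- the factors of the Euler product -/
def fac (n : ℕ) : PowerSeries ℤ := 1 - X ^ (n + 1)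

/-- `(n+1) q^(n+1) / (1 - q^(n+1))` -/
def lg (n : ℕ) : PowerSeries ℤ := mk fun m => if m ≠ 0 ∧ (n + 1) ∣ m then ((n + 1 : ℕ) : ℤ) else 0

theorem coeff_lg (n m : ℕ) :
    coeff m (lg n) = if m ≠ 0 ∧ (n + 1) ∣ m then ((n + 1 : ℕ) : ℤ) else 0 := coeff_mk _ _

theorem thetaD_fac (n : ℕ) : thetaD ℤ (fac n) = -(fac n * lg n) := by
  ext m
  rw [coeff_thetaD, map_neg, fac, sub_mul, one_mul, map_sub, map_sub, coeff_one, coeff_X_pow,
    coeff_X_pow_mul', coeff_lg, coeff_lg]
  by_cases hm0 : m = 0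
  · subst hm0
    simp
  by_cases hmn : m = n + 1
  · subst hmn
    simp
  by_cases hle : n + 1 ≤ m
  · have h1 : m - (n + 1) ≠ 0 := by omega
    have h2 : (n + 1) ∣ m - (n + 1) ↔ (n + 1) ∣ m := by
      constructor
      · intro h
        have := Nat.dvd_add h (dvd_refl (n + 1))
        rwa [Nat.sub_add_cancel hle] at this
      · intro h
        exact Nat.dvd_sub h (dvd_refl _)
    simp only [hm0, hmn, hle, h1, h2, if_false, if_true, ne_eq, not_false_eq_true, true_and]
    ring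
  · have h3 : ¬ (n + 1) ∣ m := fun h => hle (Nat.le_of_dvd (Nat.pos_of_ne_zero hm0) h)
    simp [hm0, hmn, hle, h3]

theorem thetaD_prod (s : Finset ℕ) :
    thetaD ℤ (∏ n ∈ s, fac n) = -((∏ n ∈ s, fac n) * ∑ n ∈ s, lg n) := by
  classical
  induction s using Finset.induction_on with
  | empty => simp
  | insert a s ha ih =>
    rw [Finset.prod_insert ha, Finset.sum_insert ha, Derivation.leibniz, ih, thetaD_fac,
      smul_eq_mul, smul_eq_mul]
    ring

theorem sum_range_eq_sigma (m : ℕ) :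
    ∑ n ∈ Finset.range m, (if m ≠ 0 ∧ (n + 1) ∣ m then ((n + 1 : ℕ) : ℤ) else 0) =
      (ArithmeticFunction.sigma 1 m : ℤ) := by
  rcases Nat.eq_zero_or_pos m with rfl | hm
  · simp
  rw [ArithmeticFunction.sigma_one_apply, Nat.divisors, Finset.sum_filter, Nat.cast_sum,
    Finset.sum_Ico_eq_sum_range]
  simp only [Nat.add_sub_cancel]
  refine Finset.sum_congr rfl fun n _ => ?_
  rw [add_comm 1 n]
  simp [hm.ne']

theorem hasSum_lg : HasSum lg (S16.sigZ 1) := by
  rw [PowerSeries.WithPiTopology.hasSum_iff_hasSum_coeff]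
  intro m
  have h1 : coeff m (S16.sigZ 1) = ∑ n ∈ Finset.range m, coeff m (lg n) := by
    rw [S16.sigZ, coeff_mk, ← sum_range_eq_sigma]
    exact Finset.sum_congr rfl fun n _ => (coeff_lg n m).symm
  rw [h1]
  refine hasSum_sum_of_ne_finset_zero fun n hn => ?_
  rw [coeff_lg, if_neg]
  rintro ⟨hm0, hd⟩
  exact hn (Finset.mem_range.mpr (Nat.lt_of_succ_le (Nat.le_of_dvd (Nat.pos_of_ne_zero hm0) hd)))

theorem hasProd_fac : HasProd fac etaProd :=
  (PowerSeries.WithPiTopology.multipliable_one_sub_X_pow ℤ).hasProd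

theorem tendsto_thetaD {ι : Type*} {l : Filter ι} {P : ι → PowerSeries ℤ} {Q : PowerSeries ℤ}
    (h : Tendsto P l (𝓝 Q)) : Tendsto (fun i => thetaD ℤ (P i)) l (𝓝 (thetaD ℤ Q)) := by
  rw [PowerSeries.WithPiTopology.tendsto_iff_coeff_tendsto] at h ⊢
  intro d
  simp only [coeff_thetaD]
  exact (h d).const_mul _

end LogDeriv

open LogDeriv in
/-- F1 `LogDeriv.lean`: the logarithmic derivative of the Euler product. -/
theorem thetaD_etaProd : thetaD ℤ etaProd = -(etaProd * S16.sigZ 1) := by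
  have h1 : Tendsto (fun s : Finset ℕ => thetaD ℤ (∏ n ∈ s, fac n)) atTop
      (𝓝 (thetaD ℤ etaProd)) := tendsto_thetaD hasProd_fac
  have h2 : Tendsto (fun s : Finset ℕ => -((∏ n ∈ s, fac n) * ∑ n ∈ s, lg n)) atTop
      (𝓝 (-(etaProd * S16.sigZ 1))) := (Tendsto.mul hasProd_fac hasSum_lg).neg
  simp only [thetaD_prod] at h1
  exact tendsto_nhds_unique h1 h2

end Fermat.Agent.Lib.J4

end
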