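/-
Lib/J4 (sub-architect helper269), node A2 (helper14): the `q`-expansion of `G₄²` as a `HasSum`
over `ℕ`.
-/
import Fermat.Agent.Lib.J4.Defs
import Fermat.Agent.Lib.EtaFN.QExp

set_option autoImplicit false

noncomputable section

namespace Fermat.Agent.Lib.J4

open ModularCurve Fermat.Agent.Lib.Hauptmodul PowerSeries UpperHalfPlane CongruenceSubgroup
open Fermat.Agent.S24
open scoped MatrixGroups

local notation "𝕢" => Function.Periodic.qParam

/-- An expansion with integral power series coefficients, as a `HasSum` over `ℕ`. -/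
theorem hasSum_nat_of_hasTExp_toL {f : ℍ → ℂ} {P : PowerSeries ℤ}
    (h : HasTExp 1 f (toL Kbar P)) (τ : ℍ) :
    HasSum (fun n : ℕ => ((coeff n P : ℤ) : ℂ) • 𝕢 1 τ ^ n) (f τ) := by
  have h1 := h τ
  have hinj : Function.Injective (fun n : ℕ => (n : ℤ)) := Nat.cast_injective
  rw [← hinj.hasSum_iff] at h1
  · refine h1.congr_fun fun n => ?_
    simp only [Function.comp_apply]
    rw [toL_coeff_natCast, map_intCast, zpow_natCast, Nat.cast_one, smul_eq_mul]
  · intro x hx
    have hlt : x < 0 := by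
      by_contra hge
      rw [not_lt] at hge
      exact hx ⟨x.toNat, Int.toNat_of_nonneg hge⟩
    rw [toL_coeff_of_neg _ _ hlt, map_zero, zero_mul]

/-- A2 (the hypothesis is node B2) -/
theorem hasSum_G4sq_of (h : EtaFN.etaSer Finset.univ EtaFN.D4 EtaFN.r4 = toL Kbar G4Z) (τ : ℍ) :
    HasSum (fun n : ℕ => ((coeff n (G4Z ^ 2) : ℤ) : ℂ) • 𝕢 1 τ ^ n)
      (EtaFN.etaQuot Finset.univ EtaFN.D4 EtaFN.r4 τ ^ 2) := by
  have h0 : HasTExp 1 (EtaFN.etaQuot Finset.univ EtaFN.D4 EtaFN.r4) (toL Kbar G4Z) := by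
    have := EtaFN.hasTExp_etaQuot (s := Finset.univ) (D := EtaFN.D4) (r := EtaFN.r4)
      (by intro i _; fin_cases i <;> simp [EtaFN.D4]) 0
      (by simp [Fin.sum_univ_three, EtaFN.D4, EtaFN.r4])
    rw [h] at this
    have e : (HahnSeries.single (0 : ℤ) (1 : Kbar)) = 1 := rfl
    rwa [e, one_mul] at this
  have h2 := h0.mul h0
  rw [← map_mul, ← pow_two, ← pow_two] at h2
  exact hasSum_nat_of_hasTExp_toL h2 τ

end Fermat.Agent.Lib.J4

end
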