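/-
Lib/J4 (helper269), node A3/A4: `G₄² = (4 E₂(4τ) - E₂(τ)) / 3` by the Sturm bound.
-/
import Fermat.Agent.Lib.J4.Defs
import Fermat.Agent.Lib.EtaFN.Defs
import Fermat.Agent.S16.EisP
import Fermat.Agent.Lib.Gamma0Cosets.Card
import Fermat.Prelude.Thm_ModularForm_sturm_bound_Gamma0

set_option autoImplicit false

noncomputable section

namespace Fermat.Agent.Lib.J4

open ModularCurve Fermat.Agent.Lib.Hauptmodul PowerSeries UpperHalfPlane CongruenceSubgroup
open scoped MatrixGroups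

local notation "𝕢" => Function.Periodic.qParam

theorem index_four : (Gamma0 4).index = 6 := by
  rw [Fermat.Agent.Lib.Gamma0Cosets.index_Gamma0]
  decide +kernel

theorem coeff_E24Z (n : ℕ) : coeff n E24Z =
    (if n = 0 then 1 else 0) + 8 * (ArithmeticFunction.sigma 1 n : ℤ) -
      32 * (if 4 ∣ n then (ArithmeticFunction.sigma 1 (n / 4) : ℤ) else 0) := by
  have h8 : (8 : PowerSeries ℤ) = C (8 : ℤ) := (map_ofNat C 8).symm
  have h32 : (32 : PowerSeries ℤ) = C (32 : ℤ) := (map_ofNat C 32).symm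
  rw [E24Z, map_sub, map_add, h8, h32, coeff_C_mul, coeff_C_mul, coeff_one, S16.sigZ, dilZ, coeff_mk,
    coeff_mk]
  simp only [coeff_mk]

theorem coeff_eisN_four (n : ℕ) :
    8 * (qExpansion 1 (S16.EisP.eisN 4)).coeff n = ((coeff n E24Z : ℤ) : ℂ) := by
  rw [S16.EisP.coeff_eisN, coeff_E24Z]
  by_cases h0 : n = 0
  · subst h0
    simp [S16.EisP.cEN, S16.EisP.cE]
    norm_num
  · by_cases h4 : 4 ∣ n
    · have hn4 : n / 4 ≠ 0 := by
        obtain ⟨m, rfl⟩ := h4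
        omega
      simp only [S16.EisP.cEN, S16.EisP.cE, h0, h4, hn4, if_true, if_false]
      push_cast
      ring
    · simp only [S16.EisP.cEN, S16.EisP.cE, h0, h4, if_false]
      push_cast
      ring

/-- The four squares theorem, from the analytic nodes. -/
theorem G4Z_sq_of {G : ℍ → ℂ} (hF : ∃ F : ModularForm (Gamma0 4) 2, ∀ τ : ℍ, F τ = G τ ^ 2)
    (hS : ∀ τ : ℍ, HasSum (fun n : ℕ => ((coeff n (G4Z ^ 2) : ℤ) : ℂ) • 𝕢 1 τ ^ n) (G τ ^ 2))
    (h0 : coeff 0 (G4Z ^ 2) = 1) (h1 : coeff 1 (G4Z ^ 2) = 8) : G4Z ^ 2 = E24Z := by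
  obtain ⟨F, hF⟩ := hF
  set f : ModularForm (Gamma0 4) 2 := F - (8 : ℂ) • S16.EisP.eisN 4 with hf
  have hsum : ∀ τ : ℍ, HasSum (fun n : ℕ =>
      (((coeff n (G4Z ^ 2) : ℤ) : ℂ) - ((coeff n E24Z : ℤ) : ℂ)) • 𝕢 1 τ ^ n) (f τ) := by
    intro τ
    have e1 := (hS τ).sub ((S16.EisP.hasSum_eisN 4 τ).mul_left (8 : ℂ))
    have e2 : f τ = G τ ^ 2 - 8 * S16.EisP.eisN 4 τ := by
      rw [hf, ← hF]
      rfl
    rw [e2]
    refine e1.congr_fun fun n => ?_
    rw [← coeff_eisN_four, S16.EisP.coeff_eisN]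
    simp only [smul_eq_mul]
    push_cast
    ring
  have hc : ∀ n : ℕ, (qExpansion 1 f).coeff n =
      ((coeff n (G4Z ^ 2) : ℤ) : ℂ) - ((coeff n E24Z : ℤ) : ℂ) := fun n =>
    (ModularFormClass.qExpansion_coeff_unique one_pos (S16.EisP.one_mem_strictPeriods 4)
      hsum n).symm
  have hE0 : coeff 0 E24Z = 1 := by
    rw [coeff_E24Z]; simp
  have hE1 : coeff 1 E24Z = 8 := by
    rw [coeff_E24Z]; simp
  have hz : f = 0 := by
    apply ModularForm.sturm_bound_Gamma0 4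
    intro n hn
    rw [index_four] at hn
    have hn1 : n ≤ 1 := by
      have : ((2 : ℤ) * ((6 : ℕ) : ℤ)).toNat / 12 = 1 := by decide
      omega
    rw [hc]
    interval_cases n
    · rw [h0, hE0, sub_self]
    · rw [h1, hE1, sub_self]
  ext n
  have h := hc n
  rw [hz] at h
  have h2 : (qExpansion 1 ((0 : ModularForm (Gamma0 4) 2) : ℍ → ℂ)).coeff n = 0 := by
    simp [UpperHalfPlane.qExpansion_zero]
  rw [h2] at h
  exact_mod_cast (sub_eq_zero.mp h.symm)

end Fermat.Agent.Lib.J4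

end
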