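/-
Lib/J4 (sub-architect helper269): **Jacobi's identity** `θ t₄ / t₄ = - G₄²` (four squares theorem in
eta form), `t₄ = η(τ)^8/η(4τ)^8 = 1 / h₄`, `G₄ = η(2τ)^10/(η(τ) η(4τ))^4`.  Assembly.
-/
import Fermat.Agent.Lib.J4.LogDeriv
import Fermat.Agent.Lib.J4.Formal
import Fermat.Agent.Lib.J4.Form
import Fermat.Agent.Lib.J4.QExp
import Fermat.Agent.Lib.J4.Bridge
import Fermat.Agent.Lib.J4.Sturm
import Fermat.Agent.Lib.J4.Adapter

set_option autoImplicit false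

noncomputable section

namespace Fermat.Agent.Lib.J4

open ModularCurve Fermat.Agent.Lib.Hauptmodul PowerSeries UpperHalfPlane CongruenceSubgroup
open Fermat.Agent.S24
open scoped MatrixGroups

theorem thetaD_h4Z : thetaD ℤ h4Z = h4Z * E24Z := thetaD_h4Z_of thetaD_etaProd

/-- The four squares theorem: `G₄² = 1 + 8 ∑ (σ(n) - 4 σ(n/4)) q^n`. -/
theorem G4Z_sq : G4Z ^ 2 = E24Z :=
  G4Z_sq_of exists_G4sq (hasSum_G4sq_of etaSer_D4) coeff_zero_G4Z_sq coeff_one_G4Z_sq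

/-- **J4 over `ℤ`.** -/
theorem thetaD_h4Z_eq : thetaD ℤ h4Z = h4Z * G4Z ^ 2 := by
  rw [thetaD_h4Z, G4Z_sq]

/-- **J4 over any commutative ring** (`h₄ = 1/t₄`, so `θ h₄ / h₄ = - θ t₄ / t₄ = G₄²`). -/
theorem theta_toL_h4Z (S : Type*) [CommRing S] :
    Theta.theta (toL S h4Z) = toL S h4Z * toL S G4Z ^ 2 := by
  rw [theta_toL, thetaD_h4Z_eq, map_mul, map_pow]

/-- **J4 in the language of `Lib/EtaFN`.** -/
theorem theta_t4 :
    Theta.theta
        (HahnSeries.single (-1 : ℤ) (1 : Kbar) * EtaFN.etaSer Finset.univ EtaFN.Dt4 EtaFN.rt4) =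
      -(HahnSeries.single (-1 : ℤ) (1 : Kbar) * EtaFN.etaSer Finset.univ EtaFN.Dt4 EtaFN.rt4) *
        EtaFN.etaSer Finset.univ EtaFN.D4 EtaFN.r4 ^ 2 := theta_t4_of (theta_toL_h4Z Kbar)

/-- **J4 in the language of block ETAINST**: the field `HauptData.der` for `(G4z, T4z)`. -/
theorem der_T4z :
    X * derivative ℤ BAD.Model.EtaInst.T4z - BAD.Model.EtaInst.T4z =
      -(BAD.Model.EtaInst.G4z ^ 2 * BAD.Model.EtaInst.T4z) := der_T4z_of thetaD_h4Z_eq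

end Fermat.Agent.Lib.J4

end
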